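import Mathlib
import Fermat.Agent.M59.SinkB.E225.Coef
import Fermat.Agent.M59.SinkB.E225.Hres
import Fermat.Agent.M59.Mazur.Seams
import Fermat.Agent.M59.S38g.MachEntry
import Fermat.Agent.M59.LG.ExitRes
import Fermat.Agent.S58.Top.Setup
import Fermat.Agent.S58.OldLiftSeam
import Fermat.Agent.TW.Easy.EntryTheta
import Fermat.Agent.S35

/-!
M59 / box [C + S38g], cell [MAZUR], sub-cell [MZ-32] (helper23).  Prefix `m59m32_`.

**[NR-LOWER]: lowering the level at a prime that is NOT level-raising, without geometry.**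

`m59m32_lower_nr` : `p ∈ {3, 5}`, `m59e_IsTate p W ρ`, `S` a bad set containing the primes of the
squarefree level `N`, `q ∣ N` a prime `≠ p` such that for every Frobenius element `σ` at `q`
`(tr ρ̄(σ))² ≠ (q + 1)²` (in the residue field).  Then `m59e_Occ p W S N → m59e_Occ p W S (N / q)`.

Proof (Galois side only): `m59e_Occ … N` gives a normalised eigenform `f` of level `N` congruent to
`W` (`m59lg_exitRes`); its newform `g` has level `d ∣ N` (`s58top_minLevel`).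
* `q ∤ d`: `d ∣ N / q` and `g` is old-lifted to level `N / q` (`s58o_oldLiftSeam`); the eigencharacter
  of the lift reduced modulo `𝔪` (`twfe_exists_theta`) is the eigensystem wanted (`q ∈ S`: no
  congruence at `q` is needed).
* `q ∣ d` (`q ∥ d`): the banked S35 attaches to `g` a `ρ_g` with `charpoly ρ_g(σ) = X² ∓ (q+1) X + q`
  for EVERY Frobenius element `σ` at `q`; by Chebotarev (`m59m32_cheb_two`) `σ` has the same image as a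
  Frobenius element `τ` at a prime `ℓ ∉ S` under `ρ̄` and `ρ̄_g`, where both traces are `a_ℓ(W)`:
  so `(tr ρ̄(σ))² = (q + 1)²`, against the hypothesis.

Corollaries: `m59m32_lower_harmless` (hypothesis `m59m_IsHarmless p ρ̄ q` of `S38g/MachSeams.lean`),
`m59m32_threeTwoH` (case (H) of [MZ-32]) and the glue `m59m32_threeTwo_of` (case (R) ⟹ [MZ-32]).
-/

set_option autoImplicit false
set_option linter.style.haveILetI false
set_option linter.unusedSectionVars false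
set_option linter.unusedVariables false
set_option synthInstance.maxHeartbeats 400000
set_option maxHeartbeats 1000000

open Polynomial IsLocalRing WeierstrassCurve CuspForm Fermat.Agent.S58 Fermat.Agent.JT3
  Fermat.Agent.TW

namespace Fermat.Agent.M59

/-! ### Chebotarev for two residual representations over two fields -/

/-- every `σ ∈ G_ℚ` has, under two residual representations at once, the image of a Frobenius element
at a prime outside a given finite set. -/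
theorem m59m32_cheb_two {k₁ k₂ : Type} [Field k₁] [Field k₂] (ρ₁ : ResidualGaloisRep k₁)
    (ρ₂ : ResidualGaloisRep k₂) (S : Finset ℕ)
    (σ : AlgebraicClosure ℚ ≃ₐ[ℚ] AlgebraicClosure ℚ) :
    ∃ (ℓ : ℕ) (A : ValuationSubring (AlgebraicClosure ℚ))
      (τ : AlgebraicClosure ℚ ≃ₐ[ℚ] AlgebraicClosure ℚ), ℓ.Prime ∧ ℓ ∉ S ∧ A.LiesOverPrime ℓ ∧
      A.IsFrobeniusAt τ ℓ ∧ ρ₁.ρ τ = ρ₁.ρ σ ∧ ρ₂.ρ τ = ρ₂.ρ σ := by
  classical
  obtain ⟨L₁, hL₁, hker₁⟩ := ρ₁.factorsThroughFiniteLevel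
  obtain ⟨L₂, hL₂, hker₂⟩ := ρ₂.factorsThroughFiniteLevel
  haveI := hL₁
  haveI := hL₂
  have hL : FiniteDimensional ℚ (L₁ ⊔ L₂ : IntermediateField ℚ (AlgebraicClosure ℚ)) :=
    IntermediateField.finiteDimensional_sup L₁ L₂
  obtain ⟨ℓ, A, τ, hℓ, hℓS, hA, hfrob, hτσ⟩ :=
    Fermat.Agent.S56.s56c_exists (L₁ ⊔ L₂) hL S σ
  refine ⟨ℓ, A, τ, hℓ, hℓS, hA, hfrob, ?_, ?_⟩
  · exact m59e5_eq_of_agree ρ₁.ρ L₁ hker₁ σ τ fun x hx =>
      hτσ x ((le_sup_left : L₁ ≤ L₁ ⊔ L₂) hx)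
  · exact m59e5_eq_of_agree ρ₂.ρ L₂ hker₂ σ τ fun x hx =>
      hτσ x ((le_sup_right : L₂ ≤ L₁ ⊔ L₂) hx)

/-- an integer whose image in a field of characteristic `p` is `0` has image `0` in every field of
characteristic `p`. -/
theorem m59m32_int_transfer (p : ℕ) {k₁ k₂ : Type} [Field k₁] [Field k₂] [CharP k₁ p] [CharP k₂ p]
    (z : ℤ) (h : (z : k₂) = 0) : (z : k₁) = 0 := by
  rw [CharP.intCast_eq_zero_iff k₂ p] at h
  rwa [CharP.intCast_eq_zero_iff k₁ p]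

/-! ### the contradiction at `q ∣ d` -/

section Contra

variable {p : ℕ} [hpF : Fact p.Prime] {W : WeierstrassCurve ℤ}
  {𝒪 : Type} [CommRing 𝒪] [IsLocalRing 𝒪]

/-- a newform of level `d` with `q ∥ d`, congruent to `W`, makes `q` a level-raising prime for
`ρ̄_W`. -/
theorem m59m32_contra (hp𝒪 : (p : 𝒪) ∈ maximalIdeal 𝒪) {ρ : GaloisRepAdic 𝒪}
    (hT : m59e_IsTate p W ρ) {S : Finset ℕ} (hS : m59e_IsBadSet W p S) {N : ℕ}
    (hNS : ∀ ℓ : ℕ, ℓ.Prime → ℓ ∣ N → ℓ ∈ S)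
    {d : ℕ} [NeZero d] (hdN : d ∣ N)
    {g : CuspForm (CongruenceSubgroup.Gamma0 d) 2} (hg : g.IsNewform)
    (𝔪 : Ideal (integralClosure ℤ ℂ)) (h𝔪 : 𝔪.IsMaximal)
    (hp𝔪 : (p : integralClosure ℤ ℂ) ∈ 𝔪)
    (hcong : ∀ ℓ : ℕ, ℓ.Prime → ℓ ∉ S →
      ∃ a : integralClosure ℤ ℂ, (a : ℂ) = ModularFormClass.qCoeff g ℓ ∧
        a - ((W.apOfModel ℓ : ℤ) : integralClosure ℤ ℂ) ∈ 𝔪)
    {q : ℕ} (hq : q.Prime) (hqp : q ≠ p) (hqd : q ∣ d) (hq2 : ¬ q ^ 2 ∣ d) :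
    ∃ (A : ValuationSubring twt_Qb) (σ : twt_G), A.LiesOverPrime q ∧ A.IsFrobeniusAt σ q ∧
      ((LinearMap.charpoly (ρ.residual.ρ σ)).coeff 1) ^ 2 = ((q : ResidueField 𝒪) + 1) ^ 2 := by
  classical
  haveI : CharP (ResidueField 𝒪) p := m59m_charP_residue p hp𝒪
  have hgoodS : ∀ ℓ : ℕ, ℓ.Prime → ℓ ∉ S → ℓ ≠ p ∧ W.IsGoodPrimeFor ℓ ∧ ¬ ℓ ∣ d := by
    intro ℓ hℓ hℓS
    refine ⟨fun h => hℓS (h ▸ hS.1), ?_, fun h => hℓS (hNS ℓ hℓ (h.trans hdN))⟩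
    by_contra hb
    exact hℓS (hS.2 ℓ hℓ hb)
  obtain ⟨O', i1, i2, i3, i4, i5, i6, hpO', chig, hchig, iota, -, hcongO⟩ :=
    m59e5_coef hg.1 p S 𝔪 h𝔪 hp𝔪
  obtain ⟨O, j1, j2, j3, j4, j5, j6, j7, j8, j9, -, ρg, hρ1, hρ2⟩ :=
    @Fermat.Agent.S35.result d _ g hg p _ S O' i1 i2 i3 i4 i5 i6 hpO' chig hchig iota hS.1
      (fun q' hq' hq'd => hNS q' hq' (hq'd.trans hdN))
  have hpO : (p : O) ∈ maximalIdeal O := s58top_natCast_mem_of_isLocalHom hpO'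
  haveI : CharP (ResidueField O) p := m59m_charP_residue p hpO
  obtain ⟨A, σ, hA, hσ⟩ := m59m_exists_frob hq
  refine ⟨A, σ, hA, hσ, ?_⟩
  -- the residual trace of `ρ_g` at `σ`
  have hσg : ((LinearMap.charpoly (ρg.residual.ρ σ)).coeff 1) ^ 2 =
      ((q : ResidueField O) + 1) ^ 2 := by
    rw [s58top_residual_charpoly]
    rcases hρ2 q hq hqp hqd hq2 A hA σ hσ with h | h
    · rw [h, Polynomial.coeff_map, m59m_coeff_one, map_neg, map_add, map_natCast, map_one, neg_sq]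
    · have e : (X ^ 2 + C ((q : O) + 1) * X + C (q : O) : O[X]) =
          X ^ 2 - C (-((q : O) + 1)) * X + C (q : O) := by
        rw [C_neg]; ring
      rw [h, e, Polynomial.coeff_map, m59m_coeff_one, neg_neg, map_add, map_natCast, map_one]
  -- Chebotarev
  obtain ⟨ℓ, A', τ, hℓ, hℓS, hA', hτ, e₁, e₂⟩ := m59m32_cheb_two ρ.residual ρg.residual S σ
  obtain ⟨hℓp, hℓgood, hℓd⟩ := hgoodS ℓ hℓ hℓS
  have hℓS' : ℓ ∉ (↑S : Set ℕ) := fun h => hℓS (Finset.mem_coe.mp h)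
  -- the trace of `ρ̄_W` at `τ`
  have h1 : (LinearMap.charpoly (ρ.residual.ρ σ)).coeff 1 =
      -(((W.apOfModel ℓ : ℤ) : ResidueField 𝒪)) := by
    rw [← e₁, hT.frobRes ℓ hℓ hℓp hℓgood A' hA' τ hτ, m59m_coeff_one]
  -- the trace of `ρ̄_g` at `τ`
  have h2 : (LinearMap.charpoly (ρg.residual.ρ σ)).coeff 1 =
      -(((W.apOfModel ℓ : ℤ) : ResidueField O)) := by
    obtain ⟨a, ha, ha𝔪⟩ := hcong ℓ hℓ hℓS
    have hc := hcongO (heckeAlgebra.T hℓ hℓd hℓS') a (W.apOfModel ℓ)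
      (by rw [ha, hchig]) ha𝔪
    have hc2 : algebraMap O' O ((iota.comp chig.rangeRestrict) (heckeAlgebra.T hℓ hℓd hℓS')) -
        ((W.apOfModel ℓ : ℤ) : O) ∈ maximalIdeal O := by
      have e : algebraMap O' O ((iota.comp chig.rangeRestrict) (heckeAlgebra.T hℓ hℓd hℓS')) -
          ((W.apOfModel ℓ : ℤ) : O) = algebraMap O' O ((iota.comp chig.rangeRestrict)
            (heckeAlgebra.T hℓ hℓd hℓS') - ((W.apOfModel ℓ : ℤ) : O')) := by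
        rw [map_sub, map_intCast]
      rw [e]
      exact (mem_maximalIdeal _).mpr
        (map_nonunit (algebraMap O' O) _ ((mem_maximalIdeal _).mp hc))
    rw [← e₂, m59e5_res_frob ρg τ _ _ ℓ (hρ1 ℓ hℓ hℓd hℓS' A' hA' τ hτ) hc2, m59m_coeff_one,
      map_intCast]
  -- transfer through `ℤ`
  rw [h2, neg_sq] at hσg
  rw [h1, neg_sq]
  have hz : (((W.apOfModel ℓ) ^ 2 - ((q : ℤ) + 1) ^ 2 : ℤ) : ResidueField O) = 0 := by
    push_cast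
    rw [hσg, sub_self]
  have hz' := m59m32_int_transfer p (k₁ := ResidueField 𝒪) _ hz
  push_cast at hz'
  exact sub_eq_zero.mp hz'

end Contra

/-! ### the lowering -/

/-- **[NR-LOWER]**: lowering at a prime that is not level-raising. -/
theorem m59m32_lower_nr (p : ℕ) [Fact p.Prime] (hp : p = 3 ∨ p = 5) (W : WeierstrassCurve ℤ)
    (hΔ : W.Δ ≠ 0) (hW : W.IsSemistableModel)
    (𝒪 : Type) [CommRing 𝒪] [IsDomain 𝒪] [IsDiscreteValuationRing 𝒪]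
    [IsAdicComplete (maximalIdeal 𝒪) 𝒪] [Finite (ResidueField 𝒪)] [CharZero 𝒪]
    (hp𝒪 : (p : 𝒪) ∈ maximalIdeal 𝒪) (ρ : GaloisRepAdic 𝒪) (hT : m59e_IsTate p W ρ)
    (S : Finset ℕ) (N q : ℕ) (hS : m59e_IsBadSet W p S) (hsq : Squarefree N)
    (hNS : ∀ ℓ : ℕ, ℓ.Prime → ℓ ∣ N → ℓ ∈ S) (hq : q.Prime) (hqp : q ≠ p) (hqN : q ∣ N)
    (hnr : ∀ A : ValuationSubring twt_Qb, A.LiesOverPrime q → ∀ σ : twt_G, A.IsFrobeniusAt σ q →
      ((LinearMap.charpoly (ρ.residual.ρ σ)).coeff 1) ^ 2 ≠ ((q : ResidueField 𝒪) + 1) ^ 2)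
    (hocc : m59e_Occ p W S N) : m59e_Occ p W S (N / q) := by
  classical
  have hpp : p.Prime := Fact.out
  have hR : W.IsResiduallyModularOfLevel p N :=
    m59lg_exitRes p hp W hΔ hW 𝒪 hp𝒪 ρ hT S N hS hsq hNS hocc
  obtain ⟨M', rfl⟩ := hqN
  rw [Nat.mul_div_cancel_left _ hq.pos]
  obtain ⟨f, 𝔪, hf, h𝔪, hp𝔪, hcong⟩ := hR
  have hN0 : q * M' ≠ 0 := hsq.ne_zero
  have hM0 : M' ≠ 0 := fun h => hN0 (by rw [h, mul_zero])
  obtain ⟨d, hdN, g, hg, hgf⟩ := s58top_minLevel hN0 f hf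
  have hd0 : d ≠ 0 := fun h => hN0 (by rw [h] at hdN; exact zero_dvd_iff.mp hdN)
  haveI : NeZero d := ⟨hd0⟩
  -- the congruences of `g` away from `S`
  have hgoodS : ∀ ℓ : ℕ, ℓ.Prime → ℓ ∉ S → ℓ ≠ p ∧ W.IsGoodPrimeFor ℓ ∧ ¬ ℓ ∣ q * M' := by
    intro ℓ hℓ hℓS
    refine ⟨fun h => hℓS (h ▸ hS.1), ?_, fun h => hℓS (hNS ℓ hℓ h)⟩
    by_contra hb
    exact hℓS (hS.2 ℓ hℓ hb)
  have hcongg : ∀ ℓ : ℕ, ℓ.Prime → ℓ ∉ S →
      ∃ a : integralClosure ℤ ℂ, (a : ℂ) = ModularFormClass.qCoeff g ℓ ∧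
        a - ((W.apOfModel ℓ : ℤ) : integralClosure ℤ ℂ) ∈ 𝔪 := by
    intro ℓ hℓ hℓS
    obtain ⟨hℓp, hℓgood, hℓN⟩ := hgoodS ℓ hℓ hℓS
    obtain ⟨a, ha, ha𝔪⟩ := hcong ℓ hℓ hℓgood hℓN hℓp
    exact ⟨a, by rw [ha, hgf ℓ hℓ hℓN], ha𝔪⟩
  by_cases hqd : q ∣ d
  · exfalso
    have hq2 : ¬ q ^ 2 ∣ d := by
      intro h
      have h1 : q * q ∣ q * M' := by
        rw [← pow_two]; exact h.trans hdN
      exact hq.not_isUnit (hsq q h1)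
    obtain ⟨A, σ, hA, hσ, h⟩ :=
      m59m32_contra hp𝒪 hT hS hNS hdN hg 𝔪 h𝔪 hp𝔪 hcongg hq hqp hqd hq2
    exact hnr A hA σ hσ h
  · have hcopq : Nat.Coprime d q :=
      Nat.Coprime.symm ((Nat.Prime.coprime_iff_not_dvd hq).mpr hqd)
    have hdM' : d ∣ M' := hcopq.dvd_of_dvd_mul_left hdN
    obtain ⟨R, rfl⟩ := hdM'
    have hsqM : Squarefree (d * R) := hsq.of_mul_right
    obtain ⟨hcop, -, hRsq⟩ := Nat.squarefree_mul_iff.mp hsqM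
    obtain ⟨g', hg', hg'g⟩ := s58o_oldLiftSeam d R hRsq hcop g hg.1
    haveI : NeZero (d * R) := ⟨hM0⟩
    have hMS' : ∀ r : ℕ, r.Prime → r ∣ d * R → r ∈ (↑S : Set ℕ) := fun r hr hrM =>
      Finset.mem_coe.mpr (hNS r hr (hrM.mul_left q))
    obtain ⟨θ, hθ⟩ := twfe_exists_theta hpp (↑S : Set ℕ) hMS' hg' 𝔪 h𝔪 hp𝔪
      (fun ℓ => W.apOfModel ℓ)
      (fun ℓ hℓ hℓM hℓS => by
        have hℓS' : ℓ ∉ S := fun h => hℓS (Finset.mem_coe.mpr h)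
        have hℓR : ℓ.Coprime R :=
          (Nat.Prime.coprime_iff_not_dvd hℓ).mpr fun h => hℓM (h.mul_left d)
        obtain ⟨a, ha, ha𝔪⟩ := hcongg ℓ hℓ hℓS'
        exact ⟨a, by rw [ha, hg'g ℓ hℓR], ha𝔪⟩)
    exact ⟨inferInstance, ZMod p, inferInstance, ZMod.charP p, θ,
      fun ℓ hℓ hℓM hℓS => hθ ℓ hℓ hℓM hℓS⟩

/-- **lowering at a harmless prime** (`q ≡ -1 mod p`, `tr ρ̄(Frob_q) ≠ 0`). -/
theorem m59m32_lower_harmless (p : ℕ) [Fact p.Prime] (hp : p = 3 ∨ p = 5)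
    (W : WeierstrassCurve ℤ) (hΔ : W.Δ ≠ 0) (hW : W.IsSemistableModel)
    (𝒪 : Type) [CommRing 𝒪] [IsDomain 𝒪] [IsDiscreteValuationRing 𝒪]
    [IsAdicComplete (maximalIdeal 𝒪) 𝒪] [Finite (ResidueField 𝒪)] [CharZero 𝒪]
    (hp𝒪 : (p : 𝒪) ∈ maximalIdeal 𝒪) (ρ : GaloisRepAdic 𝒪) (hT : m59e_IsTate p W ρ)
    (S : Finset ℕ) (N q : ℕ) (hS : m59e_IsBadSet W p S) (hsq : Squarefree N)
    (hNS : ∀ ℓ : ℕ, ℓ.Prime → ℓ ∣ N → ℓ ∈ S) (hq : q.Prime) (hqp : q ≠ p) (hqN : q ∣ N)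
    (hh : m59m_IsHarmless p ρ.residual q)
    (hocc : m59e_Occ p W S N) : m59e_Occ p W S (N / q) := by
  haveI : CharP (ResidueField 𝒪) p := m59m_charP_residue p hp𝒪
  have hpp : p.Prime := Fact.out
  refine m59m32_lower_nr p hp W hΔ hW 𝒪 hp𝒪 ρ hT S N q hS hsq hNS hq hqp hqN ?_ hocc
  intro A hA σ hσ
  have h0 : ((q : ResidueField 𝒪) + 1) = 0 := by
    have h1 : (((q + 1 : ℕ)) : ResidueField 𝒪) = 0 := by
      rw [CharP.cast_eq_zero_iff (ResidueField 𝒪) p]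
      have := hh.1
      have hp1 : 1 ≤ p := hpp.one_lt.le
      refine (Nat.dvd_iff_mod_eq_zero).mpr ?_
      rw [Nat.add_mod, this]
      have : (p - 1 + 1 % p) = p := by
        rw [Nat.mod_eq_of_lt hpp.one_lt]; omega
      rw [this, Nat.mod_self]
    rwa [Nat.cast_add, Nat.cast_one] at h1
  rw [h0, zero_pow two_ne_zero]
  exact pow_ne_zero 2 (hh.2 A hA σ hσ)

/-! ### the two cases of [MZ-32] -/

/-- **[MZ-32], case (H)**: `2` is harmless (`tr ρ̄(Frob₂) ≠ 0`). -/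
def m59m32_ThreeTwoH_stmt : Prop :=
  ∀ W : WeierstrassCurve ℤ, W.Δ ≠ 0 → W.IsSemistableModel →
  ∀ (𝒪 : Type) [CommRing 𝒪] [IsDomain 𝒪] [IsDiscreteValuationRing 𝒪]
    [IsAdicComplete (maximalIdeal 𝒪) 𝒪] [Finite (ResidueField 𝒪)] [CharZero 𝒪],
    ((3 : ℕ) : 𝒪) ∈ maximalIdeal 𝒪 →
  ∀ ρ : GaloisRepAdic 𝒪, m59e_IsTate 3 W ρ →
  ∀ (S : Finset ℕ) (N : ℕ), m59e_IsBadSet W 3 S → 2 ∈ S → Squarefree N →
    (∀ ℓ : ℕ, ℓ.Prime → ℓ ∣ N → ℓ ∈ S) → 2 ∣ N →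
    (W.IsGoodPrimeFor 3 → ¬ 3 ∣ N) →
    ρ.residual.IsUnramifiedAt 2 → m59m_IsHarmless 3 ρ.residual 2 →
    m59e_Occ 3 W S N → m59e_Occ 3 W S (N / 2)

/-- **[MZ-32], case (R)**: `2` is a level-raising prime (`tr ρ̄(Frob₂) = 0` for some Frobenius
element at `2`): the genuine Mazur principle at `(p, q) = (3, 2)`. -/
def m59m32_ThreeTwoR_stmt : Prop :=
  ∀ W : WeierstrassCurve ℤ, W.Δ ≠ 0 → W.IsSemistableModel →
  ∀ (𝒪 : Type) [CommRing 𝒪] [IsDomain 𝒪] [IsDiscreteValuationRing 𝒪]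
    [IsAdicComplete (maximalIdeal 𝒪) 𝒪] [Finite (ResidueField 𝒪)] [CharZero 𝒪],
    ((3 : ℕ) : 𝒪) ∈ maximalIdeal 𝒪 →
  ∀ ρ : GaloisRepAdic 𝒪, m59e_IsTate 3 W ρ →
  ∀ (S : Finset ℕ) (N : ℕ), m59e_IsBadSet W 3 S → 2 ∈ S → Squarefree N →
    (∀ ℓ : ℕ, ℓ.Prime → ℓ ∣ N → ℓ ∈ S) → 2 ∣ N →
    (W.IsGoodPrimeFor 3 → ¬ 3 ∣ N) →
    ρ.residual.IsUnramifiedAt 2 → ¬ m59m_IsHarmless 3 ρ.residual 2 →
    m59e_Occ 3 W S N → m59e_Occ 3 W S (N / 2)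

/-- **case (H) of [MZ-32] is a theorem.** -/
theorem m59m32_threeTwoH : m59m32_ThreeTwoH_stmt := by
  intro W hΔ hW 𝒪 _ _ _ _ _ _ hp𝒪 ρ hT S N hS h2S hsq hNS h2N hgood hunr hh hocc
  haveI : Fact (Nat.Prime 3) := ⟨by norm_num⟩
  exact m59m32_lower_harmless 3 (Or.inl rfl) W hΔ hW 𝒪 hp𝒪 ρ hT S N 2 hS hsq hNS Nat.prime_two
    (by norm_num) h2N hh hocc

/-- **[MZ-32] from its case (R).** -/
theorem m59m32_threeTwo_of (hR : m59m32_ThreeTwoR_stmt) : m59mz_ThreeTwo_stmt := by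
  intro W hΔ hW 𝒪 _ _ _ _ _ _ hp𝒪 ρ hT S N hS h2S hsq hNS h2N hgood hunr hocc
  by_cases hh : m59m_IsHarmless 3 ρ.residual 2
  · exact m59m32_threeTwoH W hΔ hW 𝒪 hp𝒪 ρ hT S N hS h2S hsq hNS h2N hgood hunr hh hocc
  · exact hR W hΔ hW 𝒪 hp𝒪 ρ hT S N hS h2S hsq hNS h2N hgood hunr hh hocc

end Fermat.Agent.M59
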