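/-
M59 / box [C] Mazur at `q = 2`, exponent `3`, case (R) of [MZ-32], cell **(N1)** (helper23).
Prefix `m59m32_`.

THE STATEMENT (N1) AND ITS REDUCTION TO TWO LITERAL, COVER-FREE SUB-PROPS.

`A` a valuation subring of `ℚ̄` over `2`, `kA` its residue field (`= 𝔽̄₂`), `M` odd,
`FF_M = lg_F kA M = kA(j̄(q^d) : d ∣ M) ⊆ kA((q))`, `ū = s44e_ubar A M 2` the reduction of the modular
unit `Δ(q)/Δ(q²)`.

* `m59m32_ubar_eq_j` : IN CHARACTERISTIC `2`, `ū = j̄` (`E₄ ≡ 1`, `Δ(q²) ≡ Δ(q)²`, so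
  `Δ(q)/Δ(q²) ≡ 1/Δ(q) ≡ j`);
* `m59m32_N1_stmt`  : **(N1)**: `M` odd, `r ∣ M` a prime with `r ≡ 2 (mod 3)`, `Q` a SUPERSINGULAR place of
  `FF_M` (`s44e_IsSS A M 2`) ⟹ `3 ∣ ord_Q ū`  (so `T_Q ∈ {1, 2, 4}` in `T_Q · ord_Q ū = 12`);
* `m59m32_N1A_stmt` : **(A)** (cube): for a prime `r ≡ 2 (mod 3)`, `j̄(q) · j̄(q^r)` is a CUBE in
  `FF_r = kA(j̄(q), j̄(q^r))`  (reduction of `γ₂(z) γ₂(r z)`, a modular function of level `Γ₀(r)` exactly
  when `r ≡ 2 (mod 3)`);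
* `m59m32_N1B_stmt` : **(B)** (unit): for an odd prime `r ∣ M`, `ord_Q j̄(q^r) = ord_Q j̄(q)` at every place `Q`
  of `FF_M` where `j̄` is finite  (in characteristic `2`, `j̄(q)/j̄(q^r) = Δ̄(q^r)/Δ̄(q)` is the reduction of the
  modular unit of the NON-frame prime `r`, a unit away from the cusps);
* **`m59m32_N1_of : m59m32_N1A_stmt → m59m32_N1B_stmt → m59m32_N1_stmt`**:
  `3 · ord_Q g = ord_Q j̄ + ord_Q j̄_r = 2 · ord_Q j̄`.
-/
import Mathlib
import Fermat.Agent.S44.Res.Ubar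
import Fermat.Agent.S44.Res.UDiv
import Fermat.Agent.JT3.ES.CoeffAut

set_option autoImplicit false
set_option linter.unusedSectionVars false
set_option linter.style.haveILetI false
set_option linter.unusedVariables false

noncomputable section

namespace Fermat.Agent.M59

open Polynomial ModularCurve AlgebraicCurve IntermediateField IsLocalRing
open Fermat.Agent.JT3 Fermat.Agent.MZ Fermat.Agent.S44

/-! ### characteristic `2`: `Δ(q)/Δ(q²) = 1/Δ(q) = j` -/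

section Char2

variable (k : Type*) [Field k] [CharP k 2]

/-- `E₄ ≡ 1 (mod 2)`. -/
theorem m59m32_eisenstein4_map :
    eisenstein4.map (Int.castRingHom k) = 1 := by
  ext n
  rw [PowerSeries.coeff_map, eisenstein4, PowerSeries.coeff_mk, PowerSeries.coeff_one]
  by_cases hn : n = 0
  · rw [if_pos hn, if_pos hn, map_one]
  · rw [if_neg hn, if_neg hn, map_mul]
    have h240 : (Int.castRingHom k) 240 = 0 := by
      have h2 : ((2 : ℕ) : k) = 0 := CharP.cast_eq_zero k 2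
      have : (Int.castRingHom k) 240 = ((2 : ℕ) : k) * 120 := by
        push_cast
        norm_num
      rw [this, h2, zero_mul]
    rw [h240, zero_mul]

/-- `j = 1/Δ` in characteristic `2`. -/
theorem m59m32_j_eq_deltaInv : jqModC k = mzb_qi_deltaInv k := by
  rw [jqModC, mzb_qi_deltaInv, jNum, mzb_qi_etaInv, map_mul, map_pow, m59m32_eisenstein4_map, one_pow,
    one_mul]

/-- a series with coefficients in the prime ring is fixed by the coefficientwise Frobenius. -/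
theorem m59m32_coeffMap_frob_deltaInv :
    coeffMap (frobenius k 2) (mzb_qi_deltaInv k) = mzb_qi_deltaInv k :=
  mzb_qi_coeffMap_deltaInv (frobenius k 2)

/-- `Δ(q)/Δ(q²) = 1/Δ(q)` in characteristic `2`. -/
theorem m59m32_U_eq_deltaInv : mzb_qi_U k 2 = mzb_qi_deltaInv k := by
  haveI : Fact (Nat.Prime 2) := ⟨Nat.prime_two⟩
  have h := ca_pow_eq_qExpand_frobenius k 2 (mzb_qi_deltaInv k)
  rw [m59m32_coeffMap_frob_deltaInv] at h
  rw [mzb_qi_U, ← h, sq, ← mul_assoc, mzb_qi_delta_mul_inv, one_mul]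

/-- `Δ(q)/Δ(q²) = j` in characteristic `2`. -/
theorem m59m32_U_eq_j : mzb_qi_U k 2 = jqModC k := by
  rw [m59m32_U_eq_deltaInv, m59m32_j_eq_deltaInv]

end Char2

/-! ### the statements -/

section Stmt

/-- `j̄(q^r)` as an element of `FF_M`, `r ∣ M`. -/
def m59m32_jr (A : ValuationSubring s44_Qb) (M : ℕ) [NeZero M] (r : ℕ) [NeZero r] (hrM : r ∣ M) :
    s44e_FF A M :=
  ⟨qExpand (s44e_kA A) r (jqModC (s44e_kA A)), jqModCd_mem_full (s44e_kA A) M hrM⟩

/-- **(N1)**: at an odd level `M` divisible by a prime `r ≡ 2 (mod 3)`, the order of `ū` (`= j̄`) at every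
supersingular place of `FF_M / 𝔽̄₂` is divisible by `3`. -/
def m59m32_N1_stmt : Prop :=
  ∀ (A : ValuationSubring s44_Qb), A.LiesOverPrime 2 →
    ∀ (M : ℕ) [NeZero M] [NeZero (M * 2)] (hM : ¬ 2 ∣ M) (r : ℕ), r.Prime → r ∣ M → r % 3 = 2 →
      ∀ Q : Place (s44e_kA A) (s44e_FF A M), s44e_IsSS A M 2 Nat.prime_two hM Q →
        (3 : ℤ) ∣ Q.ord (s44e_ubar A M 2)

/-- **(A)** (cube): `j̄(q) j̄(q^r)` is a cube in `FF_r`, for a prime `r ≡ 2 (mod 3)`. -/
def m59m32_N1A_stmt : Prop :=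
  ∀ (A : ValuationSubring s44_Qb), A.LiesOverPrime 2 →
    ∀ (r : ℕ) [NeZero r], r.Prime → r % 3 = 2 →
      ∃ g : LaurentSeries (s44e_kA A), g ∈ lg_F (s44e_kA A) r ∧
        g ^ 3 = jqModC (s44e_kA A) * qExpand (s44e_kA A) r (jqModC (s44e_kA A))

/-- **(B)** (unit): `ord_Q j̄(q^r) = ord_Q j̄(q)` where `j̄` is finite, `r ∣ M` an odd prime. -/
def m59m32_N1B_stmt : Prop :=
  ∀ (A : ValuationSubring s44_Qb), A.LiesOverPrime 2 →
    ∀ (M : ℕ) [NeZero M] (r : ℕ) [NeZero r], r.Prime → r ≠ 2 → ∀ hrM : r ∣ M,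
      ∀ Q : Place (s44e_kA A) (s44e_FF A M), jcr_j (k := s44e_kA A) M ∈ Q.toValuationSubring →
        Q.ord (m59m32_jr A M r hrM) = Q.ord (jcr_j (k := s44e_kA A) M)

end Stmt

/-! ### the reduction -/

section Red

variable (A : ValuationSubring s44_Qb) (hA : A.LiesOverPrime 2) (M : ℕ) [NeZero M] [NeZero (M * 2)]
  (hM : ¬ 2 ∣ M)

include hA hM in
/-- **`ū = j̄` at the frame prime `2`.** -/
theorem m59m32_ubar_eq_j : s44e_ubar A M 2 = jcr_j (k := s44e_kA A) M := by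
  haveI : Fact (Nat.Prime 2) := ⟨Nat.prime_two⟩
  haveI : CharP (s44e_kA A) 2 := jcr_charP A hA
  apply Subtype.ext
  rw [s44e_ubar_coe A hA M hM, m59m32_U_eq_j]
  rfl

theorem m59m32_jq_ne_zero (k : Type*) [Field k] : jqModC k ≠ 0 := by
  intro h
  have h1 := mzb_qi_j_mul_inv k
  rw [h, zero_mul] at h1
  exact zero_ne_one h1

/-- **the reduction of (N1) to (A) and (B).** -/
theorem m59m32_N1_of (hAst : m59m32_N1A_stmt) (hBst : m59m32_N1B_stmt) : m59m32_N1_stmt := by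
  intro A hA M _ _ hM r hr hrM hr3 Q hQ
  haveI : NeZero r := ⟨hr.ne_zero⟩
  have hj : jcr_j (k := s44e_kA A) M ∈ Q.toValuationSubring := hQ.1
  rw [m59m32_ubar_eq_j A hA M hM]
  have hr2 : r ≠ 2 := by
    rintro rfl
    exact hM hrM
  obtain ⟨g, hgm, hg3⟩ := hAst A hA r hr hr3
  have hB := hBst A hA M r hr hr2 hrM Q hj
  have hgM : g ∈ s44e_FF A M := full_degeneracyC_le (s44e_kA A) hrM hgm
  set g' : s44e_FF A M := ⟨g, hgM⟩ with hg'
  have hj0 : jcr_j (k := s44e_kA A) M ≠ 0 := by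
    intro h
    exact m59m32_jq_ne_zero (s44e_kA A) (congrArg Subtype.val h)
  have hjr0 : m59m32_jr A M r hrM ≠ 0 := by
    intro h
    have h1 : qExpand (s44e_kA A) r (jqModC (s44e_kA A)) = 0 := congrArg Subtype.val h
    rw [← map_zero (qExpand (s44e_kA A) r)] at h1
    exact m59m32_jq_ne_zero (s44e_kA A) (qExpand_injective r h1)
  have h3 : g' ^ 3 = jcr_j (k := s44e_kA A) M * m59m32_jr A M r hrM := Subtype.ext hg3
  have hord : (3 : ℤ) * Q.ord g' = Q.ord (jcr_j (k := s44e_kA A) M) + Q.ord (m59m32_jr A M r hrM) := by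
    rw [← Q.ord_mul hj0 hjr0, ← h3, ← zpow_natCast, Q.ord_zpow]
    norm_num
  rw [hB] at hord
  have h2 : (3 : ℤ) ∣ 2 * Q.ord (jcr_j (k := s44e_kA A) M) := ⟨Q.ord g', by rw [hord]; ring⟩
  exact (IsCoprime.dvd_of_dvd_mul_left (by norm_num : IsCoprime (3 : ℤ) 2) h2)

end Red

end Fermat.Agent.M59
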