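/-
M59 / box [C] Mazur at `q = 2`, exponent `3`, case (R) of [MZ-32], cell **(N1)**, part **(B)** (helper23).
Prefix `m59m32_`.

THE MODULAR UNIT OF A NON-FRAME PRIME IS A UNIT AWAY FROM THE CUSPS, IN EVERY CHARACTERISTIC `ℓ ∤ r`.

S28 (Igusa) provides the analytic Igusa datum `sy_datum0 r` over `R₀ = ℤ[ζ_r, 1/r] ⊆ ℂ`: the formal
conjugates of `a^12 Δ((a z + b)/d)/Δ(z)` and the polynomials `Up, Um ∈ R₀[J][X]` whose roots they are.
Base change along a reduction homomorphism `R₀ → k` (`k` algebraically closed of characteristic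
`ℓ ∤ r`) and the conjugate at `∞`:

* `m59m32_uq k r = r^12 Δ(q^r)/Δ(q)` and its inverse are INTEGRAL over `k[j(q)]` inside `k((q))`
  (`m59m32_uq_integral`, `m59m32_uqInv_integral`);
* in characteristic `2`, `m59m32_uq k r = j(q)/j(q^r)` (`m59m32_uq_char2`);
* **`m59m32_N1B : m59m32_N1B_stmt`**: `ord_Q j̄(q^r) = ord_Q j̄(q)` at every place `Q` of `FF_M` where `j̄` is
  finite (`r ∣ M` an odd prime, `A` over `2`).
-/
import Mathlib
import Fermat.Agent.M59.Mazur.MZ32.N1Stmt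
import Fermat.Agent.S28.Wiring.Main
import Fermat.Agent.JT.KroneckerPhi
import Fermat.Agent.MZ.C.IntOrd

set_option autoImplicit false
set_option linter.unusedSectionVars false
set_option linter.style.haveILetI false
set_option linter.unusedVariables false

noncomputable section

namespace Fermat.Agent.M59

open Polynomial ModularCurve AlgebraicCurve IntermediateField IsLocalRing
open Fermat.Agent.JT3 Fermat.Agent.MZ Fermat.Agent.S44 Fermat.Agent.S28 Fermat.Agent.JT

/-! ### the conjugate at `∞` of the modular unit, in the `q`-variable -/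

section Core

variable (k : Type*) [Field k] (r : ℕ) [NeZero r]

/-- `r^12 Δ(q^r)/Δ(q)`. -/
def m59m32_uq : LaurentSeries k :=
  HahnSeries.C ((r : k) ^ 12) * qExpand k r (fs_Delta k) * fs_DeltaInv k

/-- `rinv^12 Δ(q)/Δ(q^r)`. -/
def m59m32_uqInv (rinv : k) : LaurentSeries k :=
  HahnSeries.C (rinv ^ 12) * qExpand k r (fs_DeltaInv k) * fs_Delta k

theorem m59m32_subst_congr {c c' : kˣ} {n n' : ℕ} [NeZero n] [NeZero n'] (hc : c = c') (hn : n = n')
    (f : LaurentSeries k) : fs_subst c n f = fs_subst c' n' f := by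
  subst hc; subst hn; rfl

variable {k r}

theorem m59m32_exp_self : fs_exp r r 1 = r * r := by
  have h : r * r / 1 ≠ 0 := by
    rw [Nat.div_one]
    exact Nat.mul_ne_zero (NeZero.ne r) (NeZero.ne r)
  rw [fs_exp_eq h, Nat.div_one]

/-- the `t`-expansion of the conjugate at `∞` is `(r^12 Δ(q^r)/Δ(q))(t^r)`. -/
theorem m59m32_um_inf (ζ : kˣ) :
    fs_um ζ r r 0 1 = qExpand k r (m59m32_uq k r) := by
  haveI : NeZero (r * r) := ⟨Nat.mul_ne_zero (NeZero.ne r) (NeZero.ne r)⟩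
  have h1 : fs_subst (fs_root ζ r 0 1) (fs_exp r r 1) (fs_Delta k) =
      fs_subst (1 : kˣ) (r * r) (fs_Delta k) :=
    m59m32_subst_congr k (by rw [fs_root, mul_zero, pow_zero]) m59m32_exp_self _
  rw [fs_um, h1, fs_subst_one_eq_qExpand, fs_subst_one_eq_qExpand, m59m32_uq, map_mul, map_mul,
    qExpand_C, qExpand_qExpand]

theorem m59m32_umInv_inf (ζ : kˣ) (rinv : k) :
    fs_umInv ζ r r 0 1 rinv = qExpand k r (m59m32_uqInv k r rinv) := by
  haveI : NeZero (r * r) := ⟨Nat.mul_ne_zero (NeZero.ne r) (NeZero.ne r)⟩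
  have h1 : fs_subst (fs_root ζ r 0 1) (fs_exp r r 1) (fs_DeltaInv k) =
      fs_subst (1 : kˣ) (r * r) (fs_DeltaInv k) :=
    m59m32_subst_congr k (by rw [fs_root, mul_zero, pow_zero]) m59m32_exp_self _
  rw [fs_umInv, h1, fs_subst_one_eq_qExpand, fs_subst_one_eq_qExpand, m59m32_uqInv, map_mul, map_mul,
    qExpand_C, qExpand_qExpand]

theorem m59m32_uq_mul_inv (rinv : k) (h : (r : k) * rinv = 1) :
    m59m32_uq k r * m59m32_uqInv k r rinv = 1 := by
  have h1 : fs_Delta k * fs_DeltaInv k = 1 := fs_Delta_mul_inv k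
  have h2 : qExpand k r (fs_Delta k) * qExpand k r (fs_DeltaInv k) = 1 := by
    rw [← map_mul, h1, map_one]
  have h3 : (HahnSeries.C ((r : k) ^ 12) : LaurentSeries k) * HahnSeries.C (rinv ^ 12) = 1 := by
    rw [← map_mul, ← mul_pow, h, one_pow, map_one]
  rw [m59m32_uq, m59m32_uqInv]
  calc HahnSeries.C ((r : k) ^ 12) * qExpand k r (fs_Delta k) * fs_DeltaInv k *
        (HahnSeries.C (rinv ^ 12) * qExpand k r (fs_DeltaInv k) * fs_Delta k)
      = (HahnSeries.C ((r : k) ^ 12) * HahnSeries.C (rinv ^ 12)) *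
          (qExpand k r (fs_Delta k) * qExpand k r (fs_DeltaInv k)) *
          (fs_Delta k * fs_DeltaInv k) := by ring
    _ = 1 := by rw [h1, h2, h3, one_mul, one_mul]

/-- descent of an integrality relation from the `t`-variable to the `q`-variable. -/
theorem m59m32_descend_integral (u : LaurentSeries k)
    (h : (fs_evalJ k r).IsIntegralElem (qExpand k r u)) :
    ∃ p : Polynomial (Polynomial k), p.Monic ∧ p.eval₂ (kc_evalq k) u = 0 := by
  obtain ⟨p, hp, h0⟩ := h
  refine ⟨p, hp, ?_⟩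
  rw [← kc_qExpand_comp_evalq, ← Polynomial.hom_eval₂] at h0
  rw [← map_zero (qExpand k r)] at h0
  exact qExpand_injective r h0

variable {ζ : kˣ} (D : IgDatum k ζ r)

theorem m59m32_B_x0 : D.B D.x₀ r = 0 := by
  have h := D.B_lt D.x₀
  rw [D.A_x₀, Nat.div_self (Nat.pos_of_ne_zero (NeZero.ne r))] at h
  omega

theorem m59m32_u_x0 : D.u r D.x₀ = qExpand k r (m59m32_uq k r) := by
  rw [show D.u r D.x₀ = fs_um ζ r (D.A D.x₀ r) (D.B D.x₀ r) (r / D.A D.x₀ r) from rfl,
    D.A_x₀, m59m32_B_x0 (r := r) D, Nat.div_self (Nat.pos_of_ne_zero (NeZero.ne r))]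
  exact m59m32_um_inf ζ

theorem m59m32_uInv_x0 : D.uInv r D.x₀ = qExpand k r (m59m32_uqInv k r D.Ninv) := by
  rw [show D.uInv r D.x₀ = fs_umInv ζ r (D.A D.x₀ r) (D.B D.x₀ r) (r / D.A D.x₀ r)
      (((r / D.A D.x₀ r : ℕ) : k) * D.Ninv) from rfl,
    D.A_x₀, m59m32_B_x0 (r := r) D, Nat.div_self (Nat.pos_of_ne_zero (NeZero.ne r)),
    Nat.cast_one, one_mul]
  exact m59m32_umInv_inf ζ D.Ninv

include D in
/-- `r^12 Δ(q^r)/Δ(q)` is integral over `k[j(q)]`. -/
theorem m59m32_uq_integral_of_datum :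
    ∃ p : Polynomial (Polynomial k), p.Monic ∧ p.eval₂ (kc_evalq k) (m59m32_uq k r) = 0 := by
  refine m59m32_descend_integral (r := r) _ ?_
  have h := D.nm_integral_u D.x₀ (dvd_refl r)
  rw [nm_phi_eq_evalJ (K := k) (N := r), m59m32_u_x0 D] at h
  exact h

/-- its inverse is integral over `k[j(q)]`. -/
theorem m59m32_uqInv_integral_of_datum :
    ∃ p : Polynomial (Polynomial k), p.Monic ∧
      p.eval₂ (kc_evalq k) (m59m32_uqInv k r D.Ninv) = 0 := by
  refine m59m32_descend_integral (r := r) _ ?_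
  have h := D.nm_integral_uInv D.x₀ (dvd_refl r)
  rw [nm_phi_eq_evalJ (K := k) (N := r), D.nm_u_inv D.x₀ (dvd_refl r), m59m32_uInv_x0 D] at h
  exact h

end Core

/-! ### existence of the datum in characteristic `ℓ ∤ r` -/

section Exists

variable (k : Type) [Field k] [IsAlgClosed k] (ℓ : ℕ) [hℓ : Fact ℓ.Prime] [CharP k ℓ]
  (r : ℕ) [NeZero r] (hℓr : ¬ ℓ ∣ r)

include hℓr in
/-- **the modular unit `r^12 Δ(q^r)/Δ(q)` and its inverse are integral over `k[j]`**, `k`
algebraically closed of characteristic `ℓ ∤ r`. -/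
theorem m59m32_uq_integral :
    ∃ rinv : k, (r : k) * rinv = 1 ∧
      (∃ p : Polynomial (Polynomial k), p.Monic ∧ p.eval₂ (kc_evalq k) (m59m32_uq k r) = 0) ∧
      (∃ p : Polynomial (Polynomial k), p.Monic ∧
        p.eval₂ (kc_evalq k) (m59m32_uqInv k r rinv) = 0) := by
  obtain ⟨ρ⟩ := rh_exists_hom_of_le ℓ k (sy_R0 r) (wr_R0_le r ℓ hℓr)
  set D := (sy_datum0 r).map ρ with hD
  exact ⟨D.Ninv, D.N_mul_Ninv, m59m32_uq_integral_of_datum D, m59m32_uqInv_integral_of_datum D⟩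

end Exists

/-! ### characteristic `2` -/

section Char2

variable (k : Type*) [Field k] [CharP k 2] (r : ℕ) [NeZero r]

theorem m59m32_deltaInv_eq : fs_DeltaInv k = jqModC k := by
  rw [m59m32_j_eq_deltaInv]
  rfl

theorem m59m32_odd_cast (hr : ¬ 2 ∣ r) : (r : k) = 1 := by
  have h2 : ((2 : ℕ) : k) = 0 := CharP.cast_eq_zero k 2
  obtain ⟨m, hm⟩ : ∃ m, r = 2 * m + 1 := ⟨r / 2, by omega⟩
  rw [hm]
  push_cast
  have : (2 : k) = 0 := by exact_mod_cast h2
  rw [this, zero_mul, zero_add]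

/-- in characteristic `2`: `r^12 Δ(q^r)/Δ(q) = j(q)/j(q^r)`. -/
theorem m59m32_uq_char2 (hr : ¬ 2 ∣ r) :
    m59m32_uq k r = (qExpand k r (jqModC k))⁻¹ * jqModC k := by
  have h1 : fs_Delta k * fs_DeltaInv k = 1 := fs_Delta_mul_inv k
  have h2 : qExpand k r (fs_Delta k) * qExpand k r (fs_DeltaInv k) = 1 := by
    rw [← map_mul, h1, map_one]
  have h3 : qExpand k r (fs_Delta k) = (qExpand k r (jqModC k))⁻¹ := by
    rw [← m59m32_deltaInv_eq]
    exact eq_inv_of_mul_eq_one_left h2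
  rw [m59m32_uq, h3, m59m32_deltaInv_eq, m59m32_odd_cast k r hr, one_pow, map_one, one_mul]

end Char2

/-! ### (B) -/

section B

/-- transport of an integrality relation into `FF_M`. -/
theorem m59m32_isIntegral_FF (k : Type*) [Field k] (M : ℕ) [NeZero M]
    (u : lg_F k M) (p : Polynomial (Polynomial k)) (hp : p.Monic)
    (h0 : p.eval₂ (kc_evalq k) (u : LaurentSeries k) = 0) :
    IsIntegral (Algebra.adjoin k ({jcr_j (k := k) M} : Set (lg_F k M))) u := by
  set j' : lg_F k M := jcr_j (k := k) M with hj'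
  set S := Algebra.adjoin k ({j'} : Set (lg_F k M)) with hS
  let jS : S := ⟨j', Algebra.subset_adjoin rfl⟩
  let f : Polynomial k →+* S := (Polynomial.aeval jS : Polynomial k →ₐ[k] S).toRingHom
  refine ⟨p.map f, hp.map f, ?_⟩
  rw [Polynomial.eval₂_map]
  apply Subtype.val_injective
  have hcomp : ((lg_F k M).val : lg_F k M →+* LaurentSeries k).comp ((algebraMap S (lg_F k M)).comp f) =
      kc_evalq k := by
    refine Polynomial.ringHom_ext (fun c => ?_) ?_
    · simp only [RingHom.comp_apply, f, AlgHom.toRingHom_eq_coe, RingHom.coe_coe, Polynomial.aeval_C,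
        kc_evalq_C]
      have h1 : (algebraMap S (lg_F k M)) ((algebraMap k S) c) = algebraMap k (lg_F k M) c :=
        (IsScalarTower.algebraMap_apply k S (lg_F k M) c).symm
      rw [h1]
      exact ((lg_F k M).val.commutes c).trans (na_algebraMap_eq_C c)
    · simp only [RingHom.comp_apply, f, AlgHom.toRingHom_eq_coe, RingHom.coe_coe, Polynomial.aeval_X,
        kc_evalq_X]
      rfl
  have h1 := Polynomial.hom_eval₂ p ((algebraMap S (lg_F k M)).comp f)
    ((lg_F k M).val : lg_F k M →+* LaurentSeries k) u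
  rw [hcomp] at h1
  show ((lg_F k M).val : lg_F k M →+* LaurentSeries k) (Polynomial.eval₂ ((algebraMap S (lg_F k M)).comp f) u p) =
    ((0 : lg_F k M) : LaurentSeries k)
  rw [h1]
  exact h0

/-- **(B)**: `ord_Q j̄(q^r) = ord_Q j̄(q)` where `j̄` is finite. -/
theorem m59m32_N1B : m59m32_N1B_stmt := by
  intro A hA M _ r _ hr hr2 hrM Q hj
  haveI : Fact (Nat.Prime 2) := ⟨Nat.prime_two⟩
  haveI : CharP (s44e_kA A) 2 := jcr_charP A hA
  haveI : IsAlgClosed (s44e_kA A) := jcr_isAlgClosed A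
  have h2r : ¬ 2 ∣ r := fun h => hr2 ((Nat.prime_dvd_prime_iff_eq Nat.prime_two hr).1 h).symm
  obtain ⟨rinv, hrinv, ⟨p, hp, hp0⟩, ⟨p', hp', hp0'⟩⟩ := m59m32_uq_integral (s44e_kA A) 2 r h2r
  set j' : s44e_FF A M := jcr_j (k := s44e_kA A) M with hj'
  set jr : s44e_FF A M := m59m32_jr A M r hrM with hjr
  have hj0 : j' ≠ 0 := by
    intro h
    exact m59m32_jq_ne_zero (s44e_kA A) (congrArg Subtype.val h)
  have hjr0 : jr ≠ 0 := by
    intro h
    have h1 : qExpand (s44e_kA A) r (jqModC (s44e_kA A)) = 0 := congrArg Subtype.val h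
    rw [← map_zero (qExpand (s44e_kA A) r)] at h1
    exact m59m32_jq_ne_zero (s44e_kA A) (qExpand_injective r h1)
  set u : s44e_FF A M := jr⁻¹ * j' with hu
  have hucoe : (u : LaurentSeries (s44e_kA A)) = m59m32_uq (s44e_kA A) r := by
    rw [m59m32_uq_char2 (s44e_kA A) r h2r]
    rfl
  have huinv : ((u⁻¹ : s44e_FF A M) : LaurentSeries (s44e_kA A)) = m59m32_uqInv (s44e_kA A) r rinv := by
    have h1 := m59m32_uq_mul_inv (k := s44e_kA A) (r := r) rinv hrinv
    rw [← hucoe] at h1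
    have h2 : ((u⁻¹ : s44e_FF A M) : LaurentSeries (s44e_kA A)) = (u : LaurentSeries (s44e_kA A))⁻¹ := rfl
    rw [h2]
    exact inv_eq_of_mul_eq_one_right h1
  have hint : IsIntegral (Algebra.adjoin (s44e_kA A) ({j'} : Set (s44e_FF A M))) u :=
    m59m32_isIntegral_FF (s44e_kA A) M u p hp (by rw [hucoe]; exact hp0)
  have hint' : IsIntegral (Algebra.adjoin (s44e_kA A) ({j'} : Set (s44e_FF A M))) u⁻¹ :=
    m59m32_isIntegral_FF (s44e_kA A) M u⁻¹ p' hp' (by rw [huinv]; exact hp0')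
  have hjord : 0 ≤ Q.ord j' := (Fermat.Agent.S24.hw_mem_iff_ord_nonneg Q hj0).mp hj
  have h0 := mzc_io_ord_eq_zero_of_isIntegral Q j' u hjord hint hint'
  rw [hu, Q.ord_mul (inv_ne_zero hjr0) hj0, Q.ord_inv] at h0
  omega

end B

end Fermat.Agent.M59
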