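/-
M59 / box [C] Mazur at `q = 2`, exponent `3`, case (R) of [MZ-32], cell **(N1)**, part **(A)**, the
REDUCTION MOD `2` (helper23).  Prefix `m59m32_`.

(A) `m59m32_N1A_stmt` (`j̄(q) j̄(q^r)` is a cube in `FF_r(𝔽̄₂)`) from EITHER characteristic-zero core:

* `m59m32_N1AN_stmt` (analytic shape, helper16's [N1-AN]): `∃ x ∈ F̄_r, x³ = j² · Δ(q)/Δ(q^r)`
  (`x = E₄(z)² / (η(z) η(r z))⁸`);
* `m59m32_N1A0_stmt` (Hesse shape): `∃ x ∈ F̄_r, x³ = j(q) · j(q^r)`  (`x = γ₂(z) γ₂(r z)`).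

`x` is Gauss-integral because its cube is (valuation rings are integrally closed); its Gauss residue
(`s44rd_red` at level `r · 2`) lies in `FF_r(kA)` and its cube is the residue of the right-hand side; in
characteristic `2`, `Δ̄(q)/Δ̄(q^r) = j̄(q^r)/j̄(q)`.

* `m59m32_red_cube`    : the abstract reduction of a cube root;
* `m59m32_N1A_of_an : m59m32_N1AN_stmt → m59m32_N1A_stmt`,
  `m59m32_N1A_of_a0 : m59m32_N1A0_stmt → m59m32_N1A_stmt`;
* `m59m32_N1_of_an : m59m32_N1AN_stmt → m59m32_N1_stmt`,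
  `m59m32_N1_of_a0 : m59m32_N1A0_stmt → m59m32_N1_stmt`  (with (B) `m59m32_N1B`).
-/
import Mathlib
import Fermat.Agent.M59.Mazur.MZ32.N1B
import Fermat.Agent.S44.Res.Dict
import Fermat.Agent.S44.HeckeRes.UnitDef
import Fermat.Agent.JT.Kronecker
import Fermat.Agent.S35.RedN.Inst

set_option autoImplicit false
set_option linter.unusedSectionVars false
set_option linter.style.haveILetI false
set_option linter.unusedVariables false

noncomputable section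

namespace Fermat.Agent.M59

open Polynomial ModularCurve AlgebraicCurve IntermediateField IsLocalRing
open Fermat.Agent.JT3 Fermat.Agent.MZ Fermat.Agent.S44 Fermat.Agent.S28 Fermat.Agent.JT Fermat.Agent.S35

local notation "Qb" => AlgebraicClosure ℚ

/-! ### the characteristic-zero cores -/

/-- **[N1-AN]** (analytic shape): `E₄(z)²/(η(z)η(rz))⁸ ∈ F̄_r`, a cube root of `j² Δ(q)/Δ(q^r)`. -/
def m59m32_N1AN_stmt : Prop :=
  ∀ (r : ℕ) [NeZero r], r.Prime → r % 3 = 2 →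
    ∃ x : LaurentSeries Qb, x ∈ modularFunctionFieldBar r ∧
      x ^ 3 = jqModC Qb ^ 2 * mzb_qi_U Qb r

/-- **(A) in characteristic zero** (Hesse shape): `γ₂(z)γ₂(rz) ∈ F̄_r`, a cube root of `j(q) j(q^r)`. -/
def m59m32_N1A0_stmt : Prop :=
  ∀ (r : ℕ) [NeZero r], r.Prime → r % 3 = 2 →
    ∃ x : LaurentSeries Qb, x ∈ modularFunctionFieldBar r ∧
      x ^ 3 = jqModC Qb * qExpand Qb r (jqModC Qb)

/-! ### the reduction of a cube root -/

section Red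

variable (A : ValuationSubring Qb) (hA : A.LiesOverPrime 2) (r : ℕ) [NeZero r] (h2r : ¬ 2 ∣ r)

include hA h2r in
/-- **the reduction of a cube root**: `x ∈ F̄_r`, `x³ = y` Gauss-bounded ⟹ the Gauss residue of `y` is a
cube in `FF_r(kA)`. -/
theorem m59m32_red_cube (x y : LaurentSeries Qb) (hx : x ∈ modularFunctionFieldBar r)
    (hy : gq_IsBdd ↥A Qb y) (hxy : x ^ 3 = y) :
    ∃ g : LaurentSeries (s44e_kA A), g ∈ lg_F (s44e_kA A) r ∧ g ^ 3 = gq_res ↥A Qb ⟨y, hy⟩ := by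
  haveI : Fact (Nat.Prime 2) := ⟨Nat.prime_two⟩
  haveI : NeZero (r * 2) := ⟨Nat.mul_ne_zero (NeZero.ne r) (by norm_num)⟩
  have hx2 : x ∈ modularFunctionFieldBar (r * 2) := by
    rw [← lg_F_eq_bar] at hx ⊢
    exact full_degeneracyC_le Qb (Dvd.intro _ rfl) hx
  set x' : ↥(modularFunctionFieldBar (r * 2)) := ⟨x, hx2⟩ with hx'
  set W := s44pg_W A hA (by norm_num : (2 : ℕ) ≠ 0) (r * 2) with hW
  have hx3W : x' ^ 3 ∈ W := by
    rw [hW, s44pg_mem_iff]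
    show gq_IsBdd ↥A Qb (x ^ 3)
    rw [hxy]
    exact hy
  have hxW : x' ∈ W := by
    by_contra hcon
    have h1 : (1 : W.ValueGroup) < W.valuation x' := by
      rw [← not_le, ValuationSubring.valuation_le_one_iff]
      exact hcon
    have h2 : W.valuation (x' ^ 3) ≤ 1 := (ValuationSubring.valuation_le_one_iff _ _).mpr hx3W
    rw [map_pow] at h2
    have h3 : (1 : W.ValueGroup) < W.valuation x' ^ 3 := one_lt_pow₀ h1 (by norm_num)
    exact absurd h2 (not_le.mpr h3)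
  set g := s44rd_red A hA r h2r ⟨x', hxW⟩ with hg
  refine ⟨(g : LaurentSeries (s44e_kA A)), g.2, ?_⟩
  rw [hg, s44rd_coe_red, ← map_pow]
  congr 1
  exact Subtype.ext hxy

end Red

/-! ### (A) from the characteristic-zero cores -/

section A

/-- `Δ̄(q)/Δ̄(q^r) = j̄(q^r)/j̄(q)` in characteristic `2`. -/
theorem m59m32_U_char2 (k : Type*) [Field k] [CharP k 2] (r : ℕ) [NeZero r] :
    jqModC k * mzb_qi_U k r = qExpand k r (jqModC k) := by
  rw [mzb_qi_U, ← mul_assoc, m59m32_j_eq_deltaInv, mul_comm (mzb_qi_deltaInv k), mzb_qi_delta_mul_inv,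
    one_mul]

/-- the Gauss residue of `j`. -/
theorem m59m32_res_j (A : ValuationSubring Qb) (hj : gq_IsBdd ↥A Qb (jqModC Qb)) :
    gq_res ↥A Qb ⟨jqModC Qb, hj⟩ = jqModC (s44e_kA A) :=
  (rdn_res_congr hj (s44rd_isBdd_gen A 1) (qExpand_one_apply _).symm).trans
    ((s44rd_res_gen A 1 _).trans (qExpand_one_apply _))

theorem m59m32_isBdd_j (A : ValuationSubring Qb) : gq_IsBdd ↥A Qb (jqModC Qb) := by
  have := s44rd_isBdd_gen A 1
  rwa [qExpand_one_apply] at this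

/-- (A) at `r = 2`: `j̄(q²) = j̄²`. -/
theorem m59m32_N1A_two (k : Type*) [Field k] [CharP k 2] :
    ∃ g : LaurentSeries k, g ∈ lg_F k 2 ∧ g ^ 3 = jqModC k * qExpand k 2 (jqModC k) := by
  refine ⟨jqModC k, jqModC_mem_full k 2, ?_⟩
  rw [kc_qExpand_jq (k := k) Nat.prime_two]
  ring

/-- **(A) from [N1-AN].** -/
theorem m59m32_N1A_of_an (h : m59m32_N1AN_stmt) : m59m32_N1A_stmt := by
  intro A hA r _ hr hr3
  haveI : Fact (Nat.Prime 2) := ⟨Nat.prime_two⟩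
  haveI : CharP (s44e_kA A) 2 := jcr_charP A hA
  by_cases h2r : 2 ∣ r
  · have h2 : 2 = r := (Nat.prime_dvd_prime_iff_eq Nat.prime_two hr).1 h2r
    subst h2
    exact m59m32_N1A_two (s44e_kA A)
  obtain ⟨x, hx, hx3⟩ := h r hr hr3
  have hj : gq_IsBdd ↥A Qb (jqModC Qb) := m59m32_isBdd_j A
  have hU : gq_IsBdd ↥A Qb (mzb_qi_U Qb r) := s44hu_isBdd_U A r
  have hy : gq_IsBdd ↥A Qb (jqModC Qb ^ 2 * mzb_qi_U Qb r) :=
    (gq_bddSubring ↥A Qb).mul_mem ((gq_bddSubring ↥A Qb).pow_mem hj 2) hU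
  obtain ⟨g, hgm, hg3⟩ := m59m32_red_cube A hA r h2r x _ hx hy hx3
  refine ⟨g, hgm, ?_⟩
  rw [hg3]
  have e : (⟨jqModC Qb ^ 2 * mzb_qi_U Qb r, hy⟩ : ↥(gq_bddSubring ↥A Qb)) =
      (⟨jqModC Qb, hj⟩ : ↥(gq_bddSubring ↥A Qb)) ^ 2 * ⟨mzb_qi_U Qb r, hU⟩ := by
    apply Subtype.ext
    rw [Subring.coe_mul, SubmonoidClass.coe_pow]
  rw [e, map_mul, map_pow, m59m32_res_j A hj, s44hu_res_U A r, sq, mul_assoc, m59m32_U_char2]

/-- **(A) from the Hesse-shape core.** -/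
theorem m59m32_N1A_of_a0 (h : m59m32_N1A0_stmt) : m59m32_N1A_stmt := by
  intro A hA r _ hr hr3
  haveI : Fact (Nat.Prime 2) := ⟨Nat.prime_two⟩
  haveI : CharP (s44e_kA A) 2 := jcr_charP A hA
  by_cases h2r : 2 ∣ r
  · have h2 : 2 = r := (Nat.prime_dvd_prime_iff_eq Nat.prime_two hr).1 h2r
    subst h2
    exact m59m32_N1A_two (s44e_kA A)
  obtain ⟨x, hx, hx3⟩ := h r hr hr3
  have hj : gq_IsBdd ↥A Qb (jqModC Qb) := m59m32_isBdd_j A
  have hjr : gq_IsBdd ↥A Qb (qExpand Qb r (jqModC Qb)) := s44rd_isBdd_gen A r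
  have hy : gq_IsBdd ↥A Qb (jqModC Qb * qExpand Qb r (jqModC Qb)) :=
    (gq_bddSubring ↥A Qb).mul_mem hj hjr
  obtain ⟨g, hgm, hg3⟩ := m59m32_red_cube A hA r h2r x _ hx hy hx3
  refine ⟨g, hgm, ?_⟩
  rw [hg3]
  have e : (⟨jqModC Qb * qExpand Qb r (jqModC Qb), hy⟩ : ↥(gq_bddSubring ↥A Qb)) =
      (⟨jqModC Qb, hj⟩ : ↥(gq_bddSubring ↥A Qb)) * ⟨qExpand Qb r (jqModC Qb), hjr⟩ := by
    apply Subtype.ext
    rw [Subring.coe_mul]
  rw [e, map_mul, m59m32_res_j A hj, s44rd_res_gen A r]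

/-- **(N1) from [N1-AN]** (with (B) `m59m32_N1B`). -/
theorem m59m32_N1_of_an (h : m59m32_N1AN_stmt) : m59m32_N1_stmt :=
  m59m32_N1_of (m59m32_N1A_of_an h) m59m32_N1B

/-- **(N1) from the Hesse-shape core** (with (B) `m59m32_N1B`). -/
theorem m59m32_N1_of_a0 (h : m59m32_N1A0_stmt) : m59m32_N1_stmt :=
  m59m32_N1_of (m59m32_N1A_of_a0 h) m59m32_N1B

end A

end Fermat.Agent.M59
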