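/-
M59 / box [C] Mazur at `q = 2`, exponent `3`, case (R) of [MZ-32], cell **(N1)**, part **(A)**, THE
CHARACTERISTIC-ZERO CORE (helper23; route = referee helper27's ref36).  Prefix `m59m32_`.

For `r ≡ 2 (mod 3)` and a field `L` of characteristic zero containing a primitive cube root of unity:

  `j(q) · j(q^r)` IS A CUBE IN `F_r(L) = L(j(q), j(q^r))`.

Proof.  `μ = hs_mu L h3` the Hesse modulus, `γ = 3 μ (μ³ + 8)/(μ³ - 1) ∈ L(μ)`, `γ³ = j(q³)` (`hs_hesse`);
`μ(q^r) ∈ hs_E L h3 r = φ₃(F_r)(μ)` ([F9] + `ssm_alh_mu_expand_mem`), so `g = γ(q^r)/γ^r ∈ hs_E L h3 r` is a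
cube root of `φ₃(f)`, `f = j(q^r)/j^r ∈ F_r` of `q`-order `0`; the Hesse descent `kd_hsk_descent_series`
(JT3/KDescent/HesseKey.lean) gives `g = φ₃(g₀)`, `g₀ ∈ F_r`, `g₀³ = f`; finally
`j · j(q^r) = j^(r+1) g₀³ = (j^((r+1)/3) g₀)³`.

* `m59m32_cube_char0`   : the statement over `L`;
* **`m59m32_N1A0 : m59m32_N1A0_stmt`**, **`m59m32_N1A : m59m32_N1A_stmt`**, **`m59m32_N1 : m59m32_N1_stmt`**.
-/
import Mathlib
import Fermat.Agent.M59.Mazur.MZ32.N1ARed
import Fermat.Agent.JT3.KDescent.HesseKey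
import Fermat.Agent.SS.Model.ALEHesse
import Fermat.Agent.SS.Model.F9

set_option autoImplicit false
set_option linter.unusedSectionVars false
set_option linter.style.haveILetI false
set_option linter.unusedVariables false

noncomputable section

namespace Fermat.Agent.M59

open Polynomial ModularCurve AlgebraicCurve IntermediateField IsLocalRing
open Fermat.Agent.JT3 Fermat.Agent.MZ Fermat.Agent.S44 Fermat.Agent.S28 Fermat.Agent.SS

local notation "Qb" => AlgebraicClosure ℚ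

section Core

variable (L : Type*) [Field L] [CharZero L] (h3 : (3 : L) ≠ 0)

/-- `γ(x) = 3 x (x³ + 8)/(x³ - 1)`. -/
def m59m32_gam (x : LaurentSeries L) : LaurentSeries L := 3 * x * (x ^ 3 + 8) / (x ^ 3 - 1)

theorem m59m32_gam_map (φ : LaurentSeries L →+* LaurentSeries L) (x : LaurentSeries L) :
    φ (m59m32_gam L x) = m59m32_gam L (φ x) := by
  unfold m59m32_gam
  rw [map_div₀, map_mul, map_mul, map_add, map_sub, map_pow, map_ofNat, map_ofNat, map_one]

theorem m59m32_gam_cube (x : LaurentSeries L) (hx : x ^ 3 - 1 ≠ 0) :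
    m59m32_gam L x ^ 3 = cv_hesN x / cv_hesD x := by
  unfold m59m32_gam cv_hesN cv_hesD
  rw [div_pow]
  congr 1
  ring

/-- `γ(μ)³ = j(q³)`. -/
theorem m59m32_gam_mu_cube : m59m32_gam L (hs_mu L h3) ^ 3 = hs_j3 L := by
  rw [m59m32_gam_cube L _ (sub_ne_zero.mpr (hs_mu_cube_ne_one L h3)), hs_j3_eq_div L h3]

theorem m59m32_gam_mem (E : IntermediateField L (LaurentSeries L)) {x : LaurentSeries L}
    (hx : x ∈ E) : m59m32_gam L x ∈ E := by
  unfold m59m32_gam
  exact div_mem (mul_mem (mul_mem (ofNat_mem E 3) hx) (add_mem (pow_mem hx 3) (ofNat_mem E 8)))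
    (sub_mem (pow_mem hx 3) (one_mem E))

variable {L}

/-- **`j(q) j(q^r)` is a cube in `F_r(L)`**, `r ≡ 2 (mod 3)`. -/
theorem m59m32_cube_char0 (e : Lˣ) (he : IsPrimitiveRoot e 3) (r : ℕ) [NeZero r] (hr3 : r % 3 = 2) :
    ∃ x : LaurentSeries L, x ∈ lg_F L r ∧ x ^ 3 = jqModC L * qExpand L r (jqModC L) := by
  have h3 : (3 : L) ≠ 0 := by norm_num
  have h3r : ¬ 3 ∣ r := by
    intro h
    have := Nat.mod_eq_zero_of_dvd h
    omega
  have hF9 : ∀ (N : ℕ) [NeZero N], hs_E L h3 N = modularFunctionFieldFullC L (Nat.lcm 9 (3 * N)) :=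
    fun N _ => ssm_f9' L h3 N
  set μ := hs_mu L h3 with hμ
  set j := jqModC L with hj
  set jr := qExpand L r j with hjr
  have hj0 : j ≠ 0 := m59m32_jq_ne_zero L
  have hjr0 : jr ≠ 0 := by
    intro h
    rw [hjr, ← map_zero (qExpand L r)] at h
    exact hj0 (qExpand_injective r h)
  have hjF : j ∈ lg_F L r := jqModC_mem_full L r
  have hjrF : jr ∈ lg_F L r := jqModCd_mem_full L r (dvd_refl r)
  -- the two cube roots
  set γ := m59m32_gam L μ with hγ
  set γ' := qExpand L r γ with hγ'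
  have hγ3 : γ ^ 3 = qExpand L 3 j := m59m32_gam_mu_cube L h3
  have hγ0 : γ ≠ 0 := by
    intro h
    rw [h, zero_pow (by norm_num)] at hγ3
    rw [← map_zero (qExpand L 3)] at hγ3
    exact hj0 (qExpand_injective 3 hγ3.symm)
  have hγ'3 : γ' ^ 3 = qExpand L 3 jr := by
    rw [hγ', ← map_pow, hγ3, hjr, qExpand_qExpand, qExpand_qExpand]
    exact qExpand_congr (mul_comm r 3) _
  have hγE : γ ∈ hs_E L h3 r := m59m32_gam_mem L _ (hs_mu_mem_E L h3 r)
  have hμ'E : qExpand L r μ ∈ hs_E L h3 r := ssm_alh_mu_expand_mem L h3 hF9 r (dvd_refl r) h3r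
  have hγ'E : γ' ∈ hs_E L h3 r := by
    rw [hγ', hγ, m59m32_gam_map]
    exact m59m32_gam_mem L _ hμ'E
  -- the descent datum
  set g := γ' / γ ^ r with hg
  set f := jr / j ^ r with hf
  have hgE : g ∈ (lg_F L r).map (qExpandAlgHomC L 3) ⊔ IntermediateField.adjoin L {μ} :=
    div_mem hγ'E (pow_mem hγE r)
  have hfF : f ∈ lg_F L r := div_mem hjrF (pow_mem hjF r)
  have hg3 : g ^ 3 = qExpand L 3 f := by
    rw [hg, hf, div_pow, ← pow_mul, mul_comm r 3, pow_mul, hγ'3, hγ3, map_div₀, map_pow]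
  have hford : (3 : ℤ) ∣ f.order := by
    have hf0 : f ≠ 0 := div_ne_zero hjr0 (pow_ne_zero r hj0)
    have h1 : f * j ^ r = jr := div_mul_cancel₀ jr (pow_ne_zero r hj0)
    have h2 := congrArg HahnSeries.order h1
    rw [HahnSeries.order_mul hf0 (pow_ne_zero r hj0), HahnSeries.order_pow, hjr, fs_qExpand_order,
      hj, kd_order_jq] at h2
    have h0 : f.order = 0 := by
      simp only [nsmul_eq_mul] at h2
      linarith
    rw [h0]
    exact dvd_zero _
  obtain ⟨g0, hg0F, hg0⟩ := kd_hsk_descent_series (lg_F L r) hjF (hs_hesse L h3)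
    (hs_mu_cube_ne_one L h3) e he (hs_twist_mu L h3 e he.pow_eq_one) (p := 3) (by norm_num)
    hgE hfF hg3 (by exact_mod_cast hford)
  have hg03 : g0 ^ 3 = f := by
    apply qExpand_injective (R := L) 3
    rw [map_pow, ← hg0, hg3]
  -- the cube root of `j j_r`
  obtain ⟨m, hm⟩ : ∃ m, r + 1 = 3 * m := ⟨(r + 1) / 3, by omega⟩
  refine ⟨j ^ m * g0, mul_mem (pow_mem hjF m) hg0F, ?_⟩
  rw [mul_pow, ← pow_mul, mul_comm m 3, ← hm, hg03, hf, pow_succ, mul_comm (j ^ r) j, mul_assoc,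
    mul_div_cancel₀ _ (pow_ne_zero r hj0)]

end Core

/-! ### the conclusions -/

section Final

/-- **the characteristic-zero core of (A)** over `ℚ̄`. -/
theorem m59m32_N1A0 : m59m32_N1A0_stmt := by
  intro r _ hr hr3
  haveI : NeZero ((3 : ℕ) : Qb) := ⟨by norm_num⟩
  obtain ⟨ζ, hζ⟩ := HasEnoughRootsOfUnity.exists_primitiveRoot Qb 3
  have hu : IsUnit ζ := hζ.isUnit (by norm_num)
  obtain ⟨e, rfl⟩ := hu
  have he : IsPrimitiveRoot e 3 := IsPrimitiveRoot.coe_units_iff.mp hζ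
  obtain ⟨x, hx, hx3⟩ := m59m32_cube_char0 (L := Qb) e he r hr3
  refine ⟨x, ?_, hx3⟩
  rw [← lg_F_eq_bar]
  exact hx

/-- **(A)**: `j̄(q) j̄(q^r)` is a cube in `FF_r(𝔽̄₂)`, `r ≡ 2 (mod 3)` prime. -/
theorem m59m32_N1A : m59m32_N1A_stmt := m59m32_N1A_of_a0 m59m32_N1A0

/-- **(N1)**: at an odd level `M` divisible by a prime `r ≡ 2 (mod 3)`, `3 ∣ ord_Q ū` at every
supersingular place `Q` of `FF_M / 𝔽̄₂` (`A` over `2`). -/
theorem m59m32_N1 : m59m32_N1_stmt := m59m32_N1_of_a0 m59m32_N1A0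

end Final

end Fermat.Agent.M59
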